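import Fermat.Agent.S13.Nodal.Defs

set_option autoImplicit false

/-!
# P-S13 WP-C2a: addition formulas on the nodal normal form `y² + x y = x³ + b x`

Pure field algebra, no valuations.  Same shape as `S05/AddFormula.lean`: for the line
`y = ℓ x + ν` through `P₁, P₂` (`ν = y₁ - ℓ x₁`) and `P₃ = P₁ + P₂`:

* `ν (x₂ - x₁) = y₁ x₂ - y₂ x₁`,
* `ν (y₁ x₂ + y₂ x₁ + x₁ x₂) = (b - x₁ x₂) x₁ x₂`,
* `x₃ x₁ x₂ = ν²`,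
* `y₃ ν x₁ x₂ = x₃ (y₂ ν x₁ + ν² x₂ - b x₁ x₂)`.
-/

namespace Fermat.Agent.S13.Nodal

open WeierstrassCurve WeierstrassCurve.Affine

section Algebra

variable {K : Type*} [Field K]

/-! ### Chord case: `ℓ = (y₁ - y₂) / (x₁ - x₂)` -/

theorem AddFormula.chord_one (x₁ y₁ x₂ y₂ ℓ : K) (hd : x₁ - x₂ ≠ 0)
    (T : ℓ = (y₁ - y₂) / (x₁ - x₂)) :
    (y₁ - ℓ * x₁) * (x₂ - x₁) = y₁ * x₂ - y₂ * x₁ := by
  grind

theorem AddFormula.chord_two (x₁ y₁ x₂ y₂ b ℓ : K) (hd : x₁ - x₂ ≠ 0)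
    (E1 : y₁ ^ 2 + x₁ * y₁ = x₁ ^ 3 + b * x₁) (E2 : y₂ ^ 2 + x₂ * y₂ = x₂ ^ 3 + b * x₂)
    (T : ℓ = (y₁ - y₂) / (x₁ - x₂)) :
    (y₁ - ℓ * x₁) * (y₁ * x₂ + y₂ * x₁ + x₁ * x₂) = (b - x₁ * x₂) * (x₁ * x₂) := by
  grind

theorem AddFormula.chord_three (x₁ y₁ x₂ y₂ b ℓ : K) (hd : x₁ - x₂ ≠ 0)
    (E1 : y₁ ^ 2 + x₁ * y₁ = x₁ ^ 3 + b * x₁) (E2 : y₂ ^ 2 + x₂ * y₂ = x₂ ^ 3 + b * x₂)
    (T : ℓ = (y₁ - y₂) / (x₁ - x₂)) :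
    (ℓ ^ 2 + ℓ - x₁ - x₂) * (x₁ * x₂) = (y₁ - ℓ * x₁) ^ 2 := by
  grind

theorem AddFormula.chord_four (x₁ y₁ x₂ y₂ b ℓ : K) (hd : x₁ - x₂ ≠ 0)
    (E1 : y₁ ^ 2 + x₁ * y₁ = x₁ ^ 3 + b * x₁) (E2 : y₂ ^ 2 + x₂ * y₂ = x₂ ^ 3 + b * x₂)
    (T : ℓ = (y₁ - y₂) / (x₁ - x₂)) :
    (-(ℓ * (ℓ ^ 2 + ℓ - x₁ - x₂ - x₁) + y₁) - (ℓ ^ 2 + ℓ - x₁ - x₂)) * (y₁ - ℓ * x₁) * x₁ * x₂ =
      (ℓ ^ 2 + ℓ - x₁ - x₂) *
        (y₂ * (y₁ - ℓ * x₁) * x₁ + (y₁ - ℓ * x₁) ^ 2 * x₂ - b * x₁ * x₂) := by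
  grind

/-! ### Tangent case: `ℓ * (2 y₁ + x₁) = 3 x₁² + b - y₁` -/

theorem AddFormula.tangent_two (x₁ y₁ b ℓ : K)
    (E1 : y₁ ^ 2 + x₁ * y₁ = x₁ ^ 3 + b * x₁)
    (T : ℓ * (y₁ + y₁ + x₁) = 3 * x₁ ^ 2 + b - y₁) :
    (y₁ - ℓ * x₁) * (y₁ * x₁ + y₁ * x₁ + x₁ * x₁) = (b - x₁ * x₁) * (x₁ * x₁) := by
  grind

theorem AddFormula.tangent_three (x₁ y₁ b ℓ : K)
    (E1 : y₁ ^ 2 + x₁ * y₁ = x₁ ^ 3 + b * x₁)
    (T : ℓ * (y₁ + y₁ + x₁) = 3 * x₁ ^ 2 + b - y₁) :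
    (ℓ ^ 2 + ℓ - x₁ - x₁) * (x₁ * x₁) = (y₁ - ℓ * x₁) ^ 2 := by
  grind

theorem AddFormula.tangent_four (x₁ y₁ b ℓ : K)
    (E1 : y₁ ^ 2 + x₁ * y₁ = x₁ ^ 3 + b * x₁)
    (T : ℓ * (y₁ + y₁ + x₁) = 3 * x₁ ^ 2 + b - y₁) :
    (-(ℓ * (ℓ ^ 2 + ℓ - x₁ - x₁ - x₁) + y₁) - (ℓ ^ 2 + ℓ - x₁ - x₁)) * (y₁ - ℓ * x₁) * x₁ * x₁ =
      (ℓ ^ 2 + ℓ - x₁ - x₁) *
        (y₁ * (y₁ - ℓ * x₁) * x₁ + (y₁ - ℓ * x₁) ^ 2 * x₁ - b * x₁ * x₁) := by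
  grind

theorem AddFormula.zeroZero_X (x y b : K) (hx : x ≠ 0)
    (E1 : y ^ 2 + x * y = x ^ 3 + b * x) :
    (y / x) ^ 2 + y / x - x - 0 = b / x := by
  field_simp
  linear_combination E1

theorem AddFormula.zeroZero_Y (x y b : K) (hx : x ≠ 0)
    (E1 : y ^ 2 + x * y = x ^ 3 + b * x) :
    -((y / x) * ((y / x) ^ 2 + y / x - x - 0 - x) + y) - ((y / x) ^ 2 + y / x - x - 0) =
      -(b * (y + x) / x ^ 2) := by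
  rw [AddFormula.zeroZero_X x y b hx E1]
  field_simp
  ring

theorem IsNodalModel.negY_eq {W : Affine K} (hW : IsNodalModel W) (x y : K) :
    W.negY x y = -y - x := by
  simp [negY, hW.a₁, hW.a₃]

theorem IsNodalModel.equation_iff {W : Affine K} (hW : IsNodalModel W) (x y : K) :
    W.Equation x y ↔ y ^ 2 + x * y = x ^ 3 + W.a₄ * x := by
  rw [WeierstrassCurve.Affine.equation_iff, hW.a₁, hW.a₂, hW.a₃, hW.a₆]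
  constructor <;> intro h <;> linear_combination h

/-- `(0, 0)` is a nonsingular point of the nodal model as soon as `a₄ ≠ 0`. -/
theorem IsNodalModel.nonsingular_zeroZero {W : Affine K} (hW : IsNodalModel W) (hb0 : W.a₄ ≠ 0) :
    W.Nonsingular 0 0 := by
  rw [WeierstrassCurve.Affine.nonsingular_iff, hW.equation_iff]
  refine ⟨by simp, Or.inl ?_⟩
  simp only [hW.a₁, hW.a₂]
  intro h
  apply hb0
  linear_combination -h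

/-- The factorisation `y (y + x) = x (x² + a₄)` on the curve. -/
theorem IsNodalModel.branch_mul {W : Affine K} (hW : IsNodalModel W) {x y : K}
    (h : W.Equation x y) : y * (y + x) = x * (x ^ 2 + W.a₄) := by
  have E := (hW.equation_iff _ _).mp h
  linear_combination E

end Algebra

variable {K : Type*} [Field K] [DecidableEq K]

set_option linter.unusedVariables false in
/-- **The addition formulas** on the nodal model, for two affine points with nonzero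
`x`-coordinates which are not opposite. -/
theorem add_formula {W : Affine K} (hW : IsNodalModel W) {x₁ y₁ x₂ y₂ : K}
    (h₁ : W.Nonsingular x₁ y₁) (h₂ : W.Nonsingular x₂ y₂) (hx₁ : x₁ ≠ 0) (hx₂ : x₂ ≠ 0)
    (hne : ¬(x₁ = x₂ ∧ y₁ = -y₂ - x₂)) :
    ∃ (x₃ y₃ ν : K) (h₃ : W.Nonsingular x₃ y₃),
      Point.some x₁ y₁ h₁ + Point.some x₂ y₂ h₂ = Point.some x₃ y₃ h₃ ∧
      ν * (x₂ - x₁) = y₁ * x₂ - y₂ * x₁ ∧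
      ν * (y₁ * x₂ + y₂ * x₁ + x₁ * x₂) = (W.a₄ - x₁ * x₂) * (x₁ * x₂) ∧
      x₃ * (x₁ * x₂) = ν ^ 2 ∧
      y₃ * ν * x₁ * x₂ = x₃ * (y₂ * ν * x₁ + ν ^ 2 * x₂ - W.a₄ * x₁ * x₂) := by
  have hxy : ¬(x₁ = x₂ ∧ y₁ = W.negY x₂ y₂) := by rwa [hW.negY_eq]
  have E1 : y₁ ^ 2 + x₁ * y₁ = x₁ ^ 3 + W.a₄ * x₁ := (hW.equation_iff _ _).mp h₁.1
  have E2 : y₂ ^ 2 + x₂ * y₂ = x₂ ^ 3 + W.a₄ * x₂ := (hW.equation_iff _ _).mp h₂.1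
  refine ⟨W.addX x₁ x₂ (W.slope x₁ x₂ y₁ y₂), W.addY x₁ x₂ y₁ (W.slope x₁ x₂ y₁ y₂),
    y₁ - W.slope x₁ x₂ y₁ y₂ * x₁, nonsingular_add h₁ h₂ hxy, Point.add_some hxy, ?_⟩
  have hX : W.addX x₁ x₂ (W.slope x₁ x₂ y₁ y₂) =
      (W.slope x₁ x₂ y₁ y₂) ^ 2 + W.slope x₁ x₂ y₁ y₂ - x₁ - x₂ := by
    simp [addX, hW.a₁, hW.a₂]
  have hY : W.addY x₁ x₂ y₁ (W.slope x₁ x₂ y₁ y₂) =
      -((W.slope x₁ x₂ y₁ y₂) *
          ((W.slope x₁ x₂ y₁ y₂) ^ 2 + W.slope x₁ x₂ y₁ y₂ - x₁ - x₂ - x₁) + y₁) -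
        ((W.slope x₁ x₂ y₁ y₂) ^ 2 + W.slope x₁ x₂ y₁ y₂ - x₁ - x₂) := by
    rw [addY, hW.negY_eq, negAddY, hX]
  rw [hX, hY]
  by_cases hx : x₁ = x₂
  · subst hx
    have hy : y₁ = y₂ := by
      have h0 : (y₁ - y₂) * (y₁ + y₂ + x₁) = 0 := by linear_combination E1 - E2
      rcases mul_eq_zero.mp h0 with h | h
      · exact sub_eq_zero.mp h
      · exact absurd ⟨rfl, by linear_combination h⟩ hne
    subst hy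
    have hy2 : y₁ + y₁ + x₁ ≠ 0 := fun h => hne ⟨rfl, by linear_combination h⟩
    have hℓ : W.slope x₁ x₁ y₁ y₁ = (3 * x₁ ^ 2 + W.a₄ - y₁) / (y₁ + y₁ + x₁) := by
      rw [slope_of_Y_ne rfl (by rw [hW.negY_eq]; exact fun h => hne ⟨rfl, h⟩), hW.negY_eq, hW.a₁,
        hW.a₂]
      congr 1 <;> ring
    have T : W.slope x₁ x₁ y₁ y₁ * (y₁ + y₁ + x₁) = 3 * x₁ ^ 2 + W.a₄ - y₁ := by
      rw [hℓ, div_mul_cancel₀ _ hy2]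
    refine ⟨by ring, AddFormula.tangent_two _ _ _ _ E1 T, AddFormula.tangent_three _ _ _ _ E1 T,
      AddFormula.tangent_four _ _ _ _ E1 T⟩
  · have hd : x₁ - x₂ ≠ 0 := sub_ne_zero.mpr hx
    have hℓ : W.slope x₁ x₂ y₁ y₂ = (y₁ - y₂) / (x₁ - x₂) := slope_of_X_ne hx
    exact ⟨AddFormula.chord_one _ _ _ _ _ hd hℓ, AddFormula.chord_two _ _ _ _ _ _ hd E1 E2 hℓ,
      AddFormula.chord_three _ _ _ _ _ _ hd E1 E2 hℓ,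
      AddFormula.chord_four _ _ _ _ _ _ hd E1 E2 hℓ⟩

/-- **Translation by `T₀ = (0, 0)`**: `(x, y) + T₀ = (a₄ / x, - a₄ (y + x) / x²)`. -/
theorem add_zeroZero_formula {W : Affine K} (hW : IsNodalModel W) {x y : K}
    (h : W.Nonsingular x y) (hx : x ≠ 0) (hT : W.Nonsingular 0 0) :
    ∃ h' : W.Nonsingular (W.a₄ / x) (-(W.a₄ * (y + x) / x ^ 2)),
      Point.some x y h + Point.some 0 0 hT = Point.some _ _ h' := by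
  have E1 : y ^ 2 + x * y = x ^ 3 + W.a₄ * x := (hW.equation_iff _ _).mp h.1
  have hxy : ¬(x = 0 ∧ y = W.negY 0 0) := fun hh => hx hh.1
  have hℓ : W.slope x 0 y 0 = y / x := by
    rw [slope_of_X_ne hx, sub_zero, sub_zero]
  have hX : W.addX x 0 (W.slope x 0 y 0) = W.a₄ / x := by
    rw [hℓ, ← AddFormula.zeroZero_X x y W.a₄ hx E1]
    simp [addX, hW.a₁, hW.a₂]
  have hY : W.addY x 0 y (W.slope x 0 y 0) = -(W.a₄ * (y + x) / x ^ 2) := by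
    rw [addY, hW.negY_eq, negAddY, hℓ, ← AddFormula.zeroZero_Y x y W.a₄ hx E1]
    simp [addX, hW.a₁, hW.a₂]
  have h'' := nonsingular_add h hT hxy
  rw [hX, hY] at h''
  refine ⟨h'', ?_⟩
  rw [Point.add_some hxy]
  simp only [Point.some.injEq]
  exact ⟨hX, hY⟩

end Fermat.Agent.S13.Nodal
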