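import Fermat.Agent.S13.Nodal.Defs
import Fermat.Agent.S13.Nodal.AddFormula

set_option autoImplicit false

/-!
# P-S13 WP-C2a: basic properties of the component relation on the nodal normal form

Totality, uniqueness, behaviour under negation and under translation by the two-torsion point
`T₀ = (0, 0)`; `Comp P 1 ↔ P ∈ E₀`.  Port of `S05/CompBasic.lean`.
-/

namespace Fermat.Agent.S13.Nodal

open WeierstrassCurve WeierstrassCurve.Affine

section NoDec

variable {K : Type*} [Field K] {A : ValuationSubring K} {W : Affine K}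

theorem NodalData.beta_ne_zero (D : NodalData A W) : A.valuation W.a₄ ≠ 0 :=
  (A.valuation.ne_zero_iff).mpr D.hb0

theorem NodalData.beta_pos (D : NodalData A W) : 0 < A.valuation W.a₄ :=
  zero_lt_iff.mpr D.beta_ne_zero

theorem NodalData.nonsingular_zeroZero (D : NodalData A W) : W.Nonsingular 0 0 :=
  D.model.nonsingular_zeroZero D.hb0

theorem NodalData.negY (D : NodalData A W) (x y : K) : W.negY x y = -y - x :=
  D.model.negY_eq x y

/-- the factorisation `y (y + x) = x (x² + a₄)` on the curve -/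
theorem NodalData.branch_mul (D : NodalData A W) {x y : K} (h : W.Nonsingular x y) :
    y * (y + x) = x * (x ^ 2 + W.a₄) :=
  D.model.branch_mul h.1

theorem neg_some_eq (D : NodalData A W) {x y : K} (h : W.Nonsingular x y) :
    ∃ h' : W.Nonsingular x (-y - x), -Point.some x y h = Point.some x (-y - x) h' := by
  have h' : W.Nonsingular x (-y - x) := by
    rw [← D.negY]
    exact (nonsingular_neg ..).mpr h
  refine ⟨h', ?_⟩
  rw [Point.neg_some]
  simp only [Point.some.injEq, true_and]
  exact D.negY x y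

theorem midPlus_neg {x y : K} (h : MidMinus A W x y) : MidPlus A W x (-y - x) := by
  obtain ⟨hb, h1, hm⟩ := h
  refine ⟨hb, h1, ?_⟩
  have : -y - x = -(y + x) := by ring
  rw [this, Valuation.map_neg]
  exact hm

theorem midMinus_neg {x y : K} (h : MidPlus A W x y) : MidMinus A W x (-y - x) := by
  obtain ⟨hb, h1, hp⟩ := h
  refine ⟨hb, h1, ?_⟩
  have : -y - x + x = -y := by ring
  rw [this, Valuation.map_neg]
  exact hp

/-- On the `+` branch `v (y + x) = v x`. -/
theorem valuation_add_of_midPlus {x y : K} (h : MidPlus A W x y) :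
    A.valuation (y + x) = A.valuation x :=
  Valuation.map_add_eq_of_lt_right _ h.2.2

/-- On the `-` branch `v y = v x`. -/
theorem valuation_y_of_midMinus {x y : K} (h : MidMinus A W x y) :
    A.valuation y = A.valuation x := by
  have h1 : A.valuation ((y + x) + -x) = A.valuation (-x) :=
    Valuation.map_add_eq_of_lt_right _ (by rw [Valuation.map_neg]; exact h.2.2)
  rw [Valuation.map_neg] at h1
  rw [← h1]
  congr 1
  ring

/-- The two branches are disjoint. -/
theorem not_midPlus_and_midMinus {x y : K} (hp : MidPlus A W x y) (hm : MidMinus A W x y) :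
    False := by
  have h1 := valuation_y_of_midMinus hm
  exact absurd hp.2.2 (by rw [h1]; exact lt_irrefl _)

theorem comp_total (D : NodalData A W) (P : W.Point) :
    ∃ g : A.ValueGroup, Comp A P g ∧ g ≠ 0 := by
  rcases P with _ | ⟨x, y, h⟩
  · exact ⟨1, rfl, one_ne_zero⟩
  · by_cases h1 : 1 ≤ A.valuation x
    · exact ⟨1, Or.inl ⟨h1, rfl⟩, one_ne_zero⟩
    by_cases hβ : A.valuation x ≤ A.valuation W.a₄
    · exact ⟨A.valuation W.a₄, Or.inr (Or.inl ⟨hβ, rfl⟩), D.beta_ne_zero⟩
    rw [not_le] at h1 hβ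
    have hxpos : 0 < A.valuation x := lt_of_le_of_lt zero_le hβ
    have hx0 : A.valuation x ≠ 0 := ne_of_gt hxpos
    by_cases hp : A.valuation y < A.valuation x
    · exact ⟨A.valuation x, Or.inr (Or.inr (Or.inl ⟨⟨hβ, h1, hp⟩, rfl⟩)), hx0⟩
    · refine ⟨(A.valuation x)⁻¹, Or.inr (Or.inr (Or.inr ⟨⟨hβ, h1, ?_⟩, rfl⟩)), inv_ne_zero hx0⟩
      by_contra hm
      rw [not_lt] at hp hm
      have hprod : A.valuation x * A.valuation x ≤
          A.valuation y * A.valuation (y + x) := mul_le_mul' hp hm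
      have hfac : A.valuation y * A.valuation (y + x) =
          A.valuation x * A.valuation (x ^ 2 + W.a₄) := by
        rw [← map_mul, D.branch_mul h, map_mul]
      rw [hfac] at hprod
      have hsq : A.valuation (x ^ 2) < A.valuation x := by
        rw [map_pow, pow_two]
        exact mul_lt_of_lt_one_right hxpos h1
      have hlt : A.valuation (x ^ 2 + W.a₄) < A.valuation x :=
        lt_of_le_of_lt (A.valuation.map_add_le_max' _ _) (max_lt hsq hβ)
      exact absurd hprod (not_le.mpr (mul_lt_mul_of_pos_left hlt hxpos))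

/-- The component value of a point is unique. -/
theorem comp_unique (D : NodalData A W) {P : W.Point} {g g' : A.ValueGroup}
    (h : Comp A P g) (h' : Comp A P g') : g = g' := by
  rcases P with _ | ⟨x, y, hns⟩
  · exact (h : g = 1).trans (h' : g' = 1).symm
  · rw [comp_some_iff] at h h'
    have hβ1 : A.valuation W.a₄ < 1 := D.hb
    rcases h with ⟨h1, hg⟩ | ⟨hβ, hg⟩ | ⟨hp, hg⟩ | ⟨hm, hg⟩ <;>
      rcases h' with ⟨h1', hg'⟩ | ⟨hβ', hg'⟩ | ⟨hp', hg'⟩ | ⟨hm', hg'⟩
    · rw [hg, hg']
    · exact absurd (lt_of_le_of_lt (h1.trans hβ') hβ1) (lt_irrefl _)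
    · exact absurd (lt_of_le_of_lt h1 hp'.2.1) (lt_irrefl _)
    · exact absurd (lt_of_le_of_lt h1 hm'.2.1) (lt_irrefl _)
    · exact absurd (lt_of_le_of_lt (h1'.trans hβ) hβ1) (lt_irrefl _)
    · rw [hg, hg']
    · exact absurd (lt_of_le_of_lt hβ hp'.1) (lt_irrefl _)
    · exact absurd (lt_of_le_of_lt hβ hm'.1) (lt_irrefl _)
    · exact absurd (lt_of_le_of_lt h1' hp.2.1) (lt_irrefl _)
    · exact absurd (lt_of_le_of_lt hβ' hp.1) (lt_irrefl _)
    · rw [hg, hg']
    · exact (not_midPlus_and_midMinus hp hm').elim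
    · exact absurd (lt_of_le_of_lt h1' hm.2.1) (lt_irrefl _)
    · exact absurd (lt_of_le_of_lt hβ' hm.1) (lt_irrefl _)
    · exact (not_midPlus_and_midMinus hp' hm).elim
    · rw [hg, hg']

/-- `Comp P 1` characterises the identity component `E₀`. -/
theorem comp_one_iff (D : NodalData A W) {P : W.Point} : Comp A P 1 ↔ IsIdent A P := by
  rcases P with _ | ⟨x, y, hns⟩
  · exact ⟨fun _ => trivial, fun _ => rfl⟩
  · rw [comp_some_iff, isIdent_some]
    constructor
    · rintro (⟨h1, -⟩ | ⟨-, hg⟩ | ⟨hp, hg⟩ | ⟨hm, hg⟩)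
      · exact h1
      · exact absurd D.hb (by rw [← hg]; exact lt_irrefl _)
      · exact absurd hp.2.1 (by rw [← hg]; exact lt_irrefl _)
      · have : A.valuation x = 1 := by
          rw [← inv_inv (A.valuation x), ← hg, inv_one]
        exact absurd hm.2.1 (by rw [this]; exact lt_irrefl _)
    · exact fun h1 => Or.inl ⟨h1, rfl⟩

theorem comp_of_isIdent {P : W.Point} (h : IsIdent A P) : Comp A P 1 := by
  rcases P with _ | ⟨x, y, hns⟩
  · rfl
  · exact Or.inl ⟨h, rfl⟩

theorem comp_neg (D : NodalData A W) {P : W.Point} {g : A.ValueGroup} (hP : Comp A P g) :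
    ∃ m : ℤ, Comp A (-P) (g⁻¹ * A.valuation W.a₄ ^ (2 * m)) := by
  have hβ0 : A.valuation W.a₄ ≠ 0 := D.beta_ne_zero
  rcases P with _ | ⟨x, y, h⟩
  · have hg : g = 1 := hP
    subst hg
    refine ⟨0, ?_⟩
    show (1 : A.ValueGroup)⁻¹ * A.valuation W.a₄ ^ (2 * (0 : ℤ)) = 1
    simp
  · rw [comp_some_iff] at hP
    obtain ⟨h', hneg⟩ := neg_some_eq D h
    rw [hneg]
    rcases hP with ⟨h1, hg⟩ | ⟨hβ, hg⟩ | ⟨hp, hg⟩ | ⟨hm, hg⟩
    · refine ⟨0, (comp_some_iff A _ _).mpr (Or.inl ⟨h1, ?_⟩)⟩
      rw [hg]; simp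
    · refine ⟨1, (comp_some_iff A _ _).mpr (Or.inr (Or.inl ⟨hβ, ?_⟩))⟩
      rw [hg, mul_one, zpow_two, inv_mul_cancel_left₀ hβ0]
    · refine ⟨0, (comp_some_iff A _ _).mpr (Or.inr (Or.inr (Or.inr ⟨midMinus_neg hp, ?_⟩)))⟩
      rw [hg]; simp
    · refine ⟨0, (comp_some_iff A _ _).mpr (Or.inr (Or.inr (Or.inl ⟨midPlus_neg hm, ?_⟩)))⟩
      rw [hg]; simp

end NoDec

variable {K : Type*} [Field K] [DecidableEq K] {A : ValuationSubring K} {W : Affine K}

/-- Translation by `T₀ = (0, 0)` multiplies the component value by `v a₄` (modulo `v(a₄)²`). -/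
theorem comp_add_zeroZero (D : NodalData A W) (hT : W.Nonsingular 0 0) {P : W.Point}
    {g : A.ValueGroup} (hP : Comp A P g) :
    ∃ m : ℤ, Comp A (P + Point.some 0 0 hT) (g * A.valuation W.a₄ ^ (2 * m + 1)) := by
  have hβ0 : A.valuation W.a₄ ≠ 0 := D.beta_ne_zero
  have hβpos : 0 < A.valuation W.a₄ := D.beta_pos
  rcases P with _ | ⟨x, y, h⟩
  · have hg : g = 1 := hP
    subst hg
    refine ⟨0, ?_⟩
    show Comp A ((0 : W.Point) + Point.some 0 0 hT) _
    rw [zero_add, comp_some_iff]
    exact Or.inr (Or.inl ⟨by simp, by simp⟩)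
  · by_cases hx : x = 0
    · subst hx
      have E := (D.model.equation_iff 0 y).mp h.1
      have hy : y = 0 := by simpa using E
      subst hy
      have hsum : Point.some 0 0 h + Point.some 0 0 hT = 0 :=
        Point.add_of_Y_eq rfl (by rw [D.negY]; simp)
      rw [hsum]
      rw [comp_some_iff] at hP
      have hg : g = A.valuation W.a₄ := by
        rcases hP with ⟨h1, _⟩ | ⟨_, hg⟩ | ⟨⟨hb, _, _⟩, _⟩ | ⟨⟨hb, _, _⟩, _⟩
        · simp at h1
        · exact hg
        · simp at hb
        · simp at hb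
      refine ⟨-1, ?_⟩
      rw [comp_zero_iff, hg]
      have : (2 * (-1 : ℤ) + 1) = -1 := by norm_num
      rw [this, zpow_neg_one, mul_inv_cancel₀ hβ0]
    · obtain ⟨h', hsum⟩ := add_zeroZero_formula D.model h hx hT
      rw [hsum]
      rw [comp_some_iff] at hP
      have hvx0 : A.valuation x ≠ 0 := (A.valuation.ne_zero_iff).mpr hx
      have hvxpos : 0 < A.valuation x := zero_lt_iff.mpr hvx0
      have hvx' : A.valuation (W.a₄ / x) = A.valuation W.a₄ / A.valuation x := map_div₀ _ _ _
      rcases hP with ⟨h1, hg⟩ | ⟨hβ, hg⟩ | ⟨⟨hb, h1, hp⟩, hg⟩ | ⟨⟨hb, h1, hm⟩, hg⟩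
      · refine ⟨0, (comp_some_iff A _ _).mpr (Or.inr (Or.inl ⟨?_, ?_⟩))⟩
        · rw [hvx', div_le_iff₀ hvxpos]
          exact le_mul_of_one_le_right (le_of_lt hβpos) h1
        · rw [hg]; simp
      · refine ⟨-1, (comp_some_iff A _ _).mpr (Or.inl ⟨?_, ?_⟩)⟩
        · rw [hvx', one_le_div₀ hvxpos]
          exact hβ
        · have : (2 * (-1 : ℤ) + 1) = -1 := by norm_num
          rw [hg, this, zpow_neg_one, mul_inv_cancel₀ hβ0]
      · -- `+` branch goes to the `-` branch
        refine ⟨-1, (comp_some_iff A _ _).mpr (Or.inr (Or.inr (Or.inr ⟨⟨?_, ?_, ?_⟩, ?_⟩)))⟩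
        · rw [hvx', lt_div_iff₀ hvxpos]
          exact mul_lt_of_lt_one_right hβpos h1
        · rw [hvx', div_lt_one₀ hvxpos]
          exact hb
        · have : -(W.a₄ * (y + x) / x ^ 2) + W.a₄ / x = -(W.a₄ / x ^ 2) * y := by
            field_simp
            ring
          rw [this, map_mul, Valuation.map_neg, hvx', map_div₀, map_pow]
          have h3 : A.valuation W.a₄ / A.valuation x ^ 2 * A.valuation y <
              A.valuation W.a₄ / A.valuation x ^ 2 * A.valuation x :=
            mul_lt_mul_of_pos_left hp (div_pos hβpos (pow_pos hvxpos 2))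
          refine lt_of_lt_of_eq h3 ?_
          field_simp
        · have : (2 * (-1 : ℤ) + 1) = -1 := by norm_num
          rw [hg, this, zpow_neg_one, hvx', inv_div, div_eq_mul_inv]
      · -- `-` branch goes to the `+` branch
        refine ⟨0, (comp_some_iff A _ _).mpr (Or.inr (Or.inr (Or.inl ⟨⟨?_, ?_, ?_⟩, ?_⟩)))⟩
        · rw [hvx', lt_div_iff₀ hvxpos]
          exact mul_lt_of_lt_one_right hβpos h1
        · rw [hvx', div_lt_one₀ hvxpos]
          exact hb
        · have : -(W.a₄ * (y + x) / x ^ 2) = -(W.a₄ / x ^ 2) * (y + x) := by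
            field_simp
          rw [this, map_mul, Valuation.map_neg, hvx', map_div₀, map_pow]
          have h3 : A.valuation W.a₄ / A.valuation x ^ 2 * A.valuation (y + x) <
              A.valuation W.a₄ / A.valuation x ^ 2 * A.valuation x :=
            mul_lt_mul_of_pos_left hm (div_pos hβpos (pow_pos hvxpos 2))
          refine lt_of_lt_of_eq h3 ?_
          field_simp
        · rw [hg, hvx']
          simp [div_eq_mul_inv, mul_comm]

end Fermat.Agent.S13.Nodal
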