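import Fermat.Agent.S13.Nodal.AddCore
import Fermat.Agent.S13.Nodal.Same
import Fermat.Agent.S13.Nodal.Opp

set_option autoImplicit false
set_option linter.unusedSectionVars false

/-!
# P-S13 WP-C2c: the component value on the nodal normal form is additive

`comp_add : Comp P g → Comp Q g' → ∃ m, Comp (P + Q) (g g' β^(2m))`, `comp_nsmul`, and the
consequences for WP-LM: the identity component is a subgroup, and `P - Q ∈ E₀` when `P` and `Q`
have the same component value.
-/

namespace Fermat.Agent.S13.Nodal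

open WeierstrassCurve WeierstrassCurve.Affine

variable {K : Type*} [Field K] [DecidableEq K]

variable {A : ValuationSubring K} {W : Affine K}

theorem addPP (D : NodalData A W) : AddPP A W :=
  fun h₁ h₂ hP₁ hP₂ => comp_add_PP D h₁ h₂ hP₁ hP₂

theorem addPM (D : NodalData A W) : AddPM A W :=
  fun h₁ h₂ hP₁ hP₂ => ⟨0, by simpa using comp_add_PM D h₁ h₂ hP₁ hP₂⟩

/-- **The component value is additive** modulo even powers of `v(a₄)`. -/
theorem comp_add (D : NodalData A W) {P Q : W.Point} {g g' : A.ValueGroup}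
    (hP : Comp A P g) (hQ : Comp A Q g') :
    ∃ m : ℤ, Comp A (P + Q) (g * g' * A.valuation W.a₄ ^ (2 * m)) :=
  comp_add_of D (addPP D) (addPM D) hP hQ

theorem comp_nsmul (D : NodalData A W) {P : W.Point} {g : A.ValueGroup}
    (hP : Comp A P g) (n : ℕ) :
    ∃ m : ℤ, Comp A (n • P) (g ^ n * A.valuation W.a₄ ^ (2 * m)) :=
  comp_nsmul_of D (addPP D) (addPM D) hP n

/-- An even power of `v(a₄)` which is a component value of a point forces the point into the
identity component. -/
theorem isIdent_of_comp_zpow (D : NodalData A W) {P : W.Point} {m : ℤ}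
    (hP : Comp A P (A.valuation W.a₄ ^ (2 * m))) : IsIdent A P := by
  have hβ := D.beta_ne_zero
  have hβpos := D.beta_pos
  have hβ1 := D.hb
  rcases P with _ | ⟨x, y, h⟩
  · trivial
  rw [comp_some_iff] at hP
  rw [isIdent_some]
  -- `β ^ k < 1 ↔ 0 < k`, `β ^ k = 1 ↔ k = 0`
  rcases hP with ⟨h1, _⟩ | ⟨_, hg⟩ | ⟨⟨hb, h1, _⟩, hg⟩ | ⟨⟨hb, h1, _⟩, hg⟩
  · exact h1
  · exfalso
    have h1 : A.valuation W.a₄ ^ (2 * m) = A.valuation W.a₄ ^ (1 : ℤ) := by rw [hg, zpow_one]
    have h2 := zpow_right_injective₀ hβpos (ne_of_lt hβ1) h1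
    omega
  · exfalso
    rw [← hg] at hb h1
    have h2 : 0 < 2 * m := (zpow_lt_one_iff_right_of_lt_one₀ hβpos hβ1).mp h1
    have h3 : A.valuation W.a₄ ^ (1 : ℤ) < A.valuation W.a₄ ^ (2 * m) := by rwa [zpow_one]
    have h4 : 2 * m < 1 := (zpow_lt_zpow_iff_right_of_lt_one₀ hβpos hβ1).mp h3
    omega
  · exfalso
    have hx0 : A.valuation x ≠ 0 := (lt_of_le_of_lt zero_le hb).ne'
    have hx : A.valuation x = A.valuation W.a₄ ^ (-(2 * m)) := by
      rw [zpow_neg, hg, inv_inv]
    rw [hx] at hb h1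
    have h2 : 0 < -(2 * m) := (zpow_lt_one_iff_right_of_lt_one₀ hβpos hβ1).mp h1
    have h3 : A.valuation W.a₄ ^ (1 : ℤ) < A.valuation W.a₄ ^ (-(2 * m)) := by rwa [zpow_one]
    have h4 : -(2 * m) < 1 := (zpow_lt_zpow_iff_right_of_lt_one₀ hβpos hβ1).mp h3
    omega

/-- The identity component is closed under addition. -/
theorem isIdent_add (D : NodalData A W) {P Q : W.Point} (hP : IsIdent A P) (hQ : IsIdent A Q) :
    IsIdent A (P + Q) := by
  obtain ⟨m, hm⟩ := comp_add D (comp_of_isIdent hP) (comp_of_isIdent hQ)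
  rw [one_mul, one_mul] at hm
  exact isIdent_of_comp_zpow D hm

/-- The identity component is closed under negation. -/
theorem isIdent_neg (D : NodalData A W) {P : W.Point} (hP : IsIdent A P) : IsIdent A (-P) := by
  obtain ⟨m, hm⟩ := comp_neg D (comp_of_isIdent hP)
  rw [inv_one, one_mul] at hm
  exact isIdent_of_comp_zpow D hm

/-- The identity component `E₀` of the nodal normal form as a subgroup. -/
def identSubgroup (D : NodalData A W) : AddSubgroup W.Point where
  carrier := {P | IsIdent A P}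
  zero_mem' := (isIdent_zero A : IsIdent A (0 : W.Point))
  add_mem' := fun hP hQ => isIdent_add D hP hQ
  neg_mem' := fun hP => isIdent_neg D hP

@[simp] theorem mem_identSubgroup (D : NodalData A W) (P : W.Point) :
    P ∈ identSubgroup D ↔ IsIdent A P := Iff.rfl

/-- Two points with the same component value differ by a point of the identity component. -/
theorem isIdent_sub_of_comp (D : NodalData A W) {P Q : W.Point} {g : A.ValueGroup}
    (hg : g ≠ 0) (hP : Comp A P g) (hQ : Comp A Q g) : IsIdent A (P - Q) := by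
  have hβ := D.beta_ne_zero
  obtain ⟨m, hm⟩ := comp_neg D hQ
  obtain ⟨m', hm'⟩ := comp_add D hP hm
  rw [sub_eq_add_neg]
  apply isIdent_of_comp_zpow D (m := m + m')
  have e : g * (g⁻¹ * A.valuation W.a₄ ^ (2 * m)) * A.valuation W.a₄ ^ (2 * m') =
      A.valuation W.a₄ ^ (2 * (m + m')) := by
    rw [← mul_assoc, mul_inv_cancel₀ hg, one_mul, ← zpow_add₀ hβ]
    congr 1
    ring
  rwa [e] at hm'

end Fermat.Agent.S13.Nodal
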