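import Mathlib

set_option autoImplicit false

/-!
# P-S13 WP-C2a: the nodal normal form `N_b : y² + x y = x³ + b x` and its component relation

`K` a field with a valuation subring `A` (any residue characteristic; `2` is *not* assumed to be a
unit), `0 < v b < 1`.  The node of the reduction is `(0, 0)`, with the two branches `y ≡ 0` and
`y + x ≡ 0`; on the curve `y (y + x) = x (x² + b)`.

`Comp A P g`: the point `P` has component value `g` (well defined modulo `v(b)²`): `1` on the
identity component `E₀` (`1 ≤ v x` or `P = O`), `v(b)` on the component of `T₀ = (0,0)`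
(`v x ≤ v b`), `v(x)` resp. `v(x)⁻¹` on the two branches through the node (`v b < v x < 1`).

This is `S05/CompDefs.lean` (model `Y² = X³ + a₂ X² + a₄ X`, `γ² = a₂`, `2` a unit) in coordinates
where `2` need not be a unit: `Y - γ X ↔ y`, `Y + γ X ↔ y + x`, `2 γ ↔ 1`.
-/

namespace Fermat.Agent.S13.Nodal

open WeierstrassCurve WeierstrassCurve.Affine

variable {K : Type*} [Field K]

/-- The Weierstrass curve has the shape `y² + x y = x³ + a₄ x`. -/
structure IsNodalModel (W : WeierstrassCurve K) : Prop where
  a₁ : W.a₁ = 1
  a₂ : W.a₂ = 0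
  a₃ : W.a₃ = 0
  a₆ : W.a₆ = 0

/-- Standing hypotheses: `W : y² + x y = x³ + b x` with `b = a₄` a nonzero element of the maximal
ideal of `A`. -/
structure NodalData (A : ValuationSubring K) (W : Affine K) : Prop where
  model : IsNodalModel W
  hb : A.valuation W.a₄ < 1
  hb0 : W.a₄ ≠ 0

/-- The affine point `(x, y)` is close to the node, on the branch `y ≡ 0`. -/
def MidPlus (A : ValuationSubring K) (W : Affine K) (x y : K) : Prop :=
  A.valuation W.a₄ < A.valuation x ∧ A.valuation x < 1 ∧ A.valuation y < A.valuation x

/-- The affine point `(x, y)` is close to the node, on the branch `y + x ≡ 0`. -/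
def MidMinus (A : ValuationSubring K) (W : Affine K) (x y : K) : Prop :=
  A.valuation W.a₄ < A.valuation x ∧ A.valuation x < 1 ∧ A.valuation (y + x) < A.valuation x

/-- `Comp A P g`: the point `P` has component value `g` (well defined modulo `v(a₄)²`):
`1` on the identity component, `v(a₄)` on the component of `(0,0)`, `v(x)` resp. `v(x)⁻¹`
on the two branches through the node. -/
def Comp (A : ValuationSubring K) {W : Affine K} (P : W.Point) (g : A.ValueGroup) : Prop :=
  match P with
  | .zero => g = 1
  | .some x y _ =>
      (1 ≤ A.valuation x ∧ g = 1) ∨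
      (A.valuation x ≤ A.valuation W.a₄ ∧ g = A.valuation W.a₄) ∨
      (MidPlus A W x y ∧ g = A.valuation x) ∨
      (MidMinus A W x y ∧ g = (A.valuation x)⁻¹)

theorem comp_zero_iff (A : ValuationSubring K) {W : Affine K} (g : A.ValueGroup) :
    Comp A (0 : W.Point) g ↔ g = 1 := Iff.rfl

theorem comp_some_iff (A : ValuationSubring K) {W : Affine K} {x y : K}
    (h : W.Nonsingular x y) (g : A.ValueGroup) :
    Comp A (Point.some x y h) g ↔
      (1 ≤ A.valuation x ∧ g = 1) ∨
      (A.valuation x ≤ A.valuation W.a₄ ∧ g = A.valuation W.a₄) ∨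
      (MidPlus A W x y ∧ g = A.valuation x) ∨
      (MidMinus A W x y ∧ g = (A.valuation x)⁻¹) := Iff.rfl

/-- The identity component `E₀`: the point at infinity and the affine points with `1 ≤ v x`. -/
def IsIdent (A : ValuationSubring K) {W : Affine K} : W.Point → Prop
  | .zero => True
  | .some x _ _ => 1 ≤ A.valuation x

@[simp] theorem isIdent_zero (A : ValuationSubring K) {W : Affine K} :
    IsIdent A (0 : W.Point) := trivial

@[simp] theorem isIdent_some (A : ValuationSubring K) {W : Affine K} {x y : K}
    (h : W.Nonsingular x y) : IsIdent A (Point.some x y h) ↔ 1 ≤ A.valuation x := Iff.rfl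

end Fermat.Agent.S13.Nodal
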