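import Fermat.Agent.S13.Nodal.Defs
import Fermat.Agent.S13.Nodal.AddFormula
import Fermat.Agent.S13.Nodal.Basic

set_option autoImplicit false
set_option linter.unusedSimpArgs false

/-!
# P-S13 WP-C2c: sums involving points of the identity component of the nodal normal form

On `N_b : y² + x y = x³ + b x`: the sum of two points of the identity component (`1 ≤ v x`) is again
on the identity component, and adding such a point to a point on the `+` branch through the node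
does not change the component value.  Port of `S05/CompIdent.lean` (`y - γ x ↦ y`,
`y + γ x ↦ y + x`); `2` is never inverted.
-/

namespace Fermat.Agent.S13.Nodal

section Core

variable {K : Type*} [Field K] {Γ₀ : Type*} [LinearOrderedCommGroupWithZero Γ₀]
  (v : Valuation K Γ₀)

/-- On the curve `y² + x y = x³ + b x` with `b` integral, a point with `1 ≤ v x`
has `v y ^ 2 ≤ v x ^ 3`. -/
theorem Ident.val_y_sq_le {b x y : K} (hb : v b ≤ 1) (hx : 1 ≤ v x)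
    (E : y ^ 2 + x * y = x ^ 3 + b * x) : v y ^ 2 ≤ v x ^ 3 := by
  by_contra hcon
  rw [not_le] at hcon
  have px : 0 < v x := lt_of_lt_of_le zero_lt_one hx
  -- `v x < v y`
  have hxy : v x < v y := by
    apply lt_of_pow_lt_pow_left₀ 2 zero_le
    calc v x ^ 2 = v x ^ 2 * 1 := (mul_one _).symm
      _ ≤ v x ^ 2 * v x := mul_le_mul' le_rfl hx
      _ = v x ^ 3 := by rw [← pow_succ]
      _ < v y ^ 2 := hcon
  -- the left hand side has valuation `v y ^ 2`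
  have hL : v (y ^ 2 + x * y) = v y ^ 2 := by
    have h1 : y ^ 2 + x * y = y * (y + x) := by ring
    rw [h1, map_mul, Valuation.map_add_eq_of_lt_left v hxy, pow_two]
  -- the right hand side has valuation at most `v x ^ 3`
  have hR : v (x ^ 3 + b * x) ≤ v x ^ 3 := by
    have h1 : v (x ^ 3) ≤ v x ^ 3 := by rw [map_pow]
    have h2 : v (b * x) ≤ v x ^ 3 := by
      rw [map_mul]
      calc v b * v x ≤ 1 * v x := mul_le_mul' hb le_rfl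
        _ = 1 * 1 * v x := by simp
        _ ≤ v x * v x * v x := mul_le_mul' (mul_le_mul' hx hx) le_rfl
        _ = v x ^ 3 := by rw [pow_succ, pow_two]
    exact le_trans (Valuation.map_add_le_max' v _ _) (max_le h1 h2)
  rw [E] at hL
  rw [hL] at hR
  exact absurd hR (not_le.mpr hcon)

/-- Core valuation computation for the sum of two points of the identity component. -/
theorem Ident.coreEE {b x₁ y₁ x₂ y₂ x₃ ν : K} (hb : v b < 1)
    (hx₁ : 1 ≤ v x₁) (hx₂ : 1 ≤ v x₂)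
    (E1 : y₁ ^ 2 + x₁ * y₁ = x₁ ^ 3 + b * x₁) (E2 : y₂ ^ 2 + x₂ * y₂ = x₂ ^ 3 + b * x₂)
    (N2 : ν * (y₁ * x₂ + y₂ * x₁ + x₁ * x₂) = (b - x₁ * x₂) * (x₁ * x₂))
    (X3 : x₃ * (x₁ * x₂) = ν ^ 2) : 1 ≤ v x₃ := by
  have p₁ : 0 < v x₁ := lt_of_lt_of_le zero_lt_one hx₁
  have p₂ : 0 < v x₂ := lt_of_lt_of_le zero_lt_one hx₂
  have p₁₂ : 0 < v x₁ * v x₂ := mul_pos p₁ p₂
  have h12 : 1 ≤ v x₁ * v x₂ := by
    calc (1 : Γ₀) = 1 * 1 := (one_mul 1).symm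
      _ ≤ v x₁ * v x₂ := mul_le_mul' hx₁ hx₂
  have hy₁ := Ident.val_y_sq_le v (le_of_lt hb) hx₁ E1
  have hy₂ := Ident.val_y_sq_le v (le_of_lt hb) hx₂ E2
  -- `v (b - x₁ x₂) = v x₁ * v x₂`
  have hbx : v (b - x₁ * x₂) = v x₁ * v x₂ := by
    rw [← map_mul]
    exact Valuation.map_sub_eq_of_lt_right v (by rw [map_mul]; exact lt_of_lt_of_le hb h12)
  set w := y₁ * x₂ + y₂ * x₁ + x₁ * x₂ with hwdef
  -- `v ν * v w = (v x₁ * v x₂) ^ 2`
  have hνw : v ν * v w = (v x₁ * v x₂) ^ 2 := by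
    rw [← map_mul, N2, map_mul, hbx, map_mul, pow_two]
  -- `v w ^ 2 ≤ (v x₁ * v x₂) ^ 3`
  have hw : v w ^ 2 ≤ (v x₁ * v x₂) ^ 3 := by
    have hA : (v (y₁ * x₂)) ^ 2 ≤ (v x₁ * v x₂) ^ 3 := by
      rw [map_mul, mul_pow, mul_pow]
      calc v y₁ ^ 2 * v x₂ ^ 2 ≤ v x₁ ^ 3 * v x₂ ^ 2 := mul_le_mul' hy₁ le_rfl
        _ = v x₁ ^ 3 * (v x₂ ^ 2 * 1) := by rw [mul_one]
        _ ≤ v x₁ ^ 3 * (v x₂ ^ 2 * v x₂) := mul_le_mul' le_rfl (mul_le_mul' le_rfl hx₂)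
        _ = v x₁ ^ 3 * v x₂ ^ 3 := by rw [← pow_succ]
    have hB : (v (y₂ * x₁)) ^ 2 ≤ (v x₁ * v x₂) ^ 3 := by
      rw [map_mul, mul_pow, mul_pow]
      calc v y₂ ^ 2 * v x₁ ^ 2 ≤ v x₂ ^ 3 * v x₁ ^ 2 := mul_le_mul' hy₂ le_rfl
        _ = (v x₁ ^ 2 * 1) * v x₂ ^ 3 := by rw [mul_one, mul_comm]
        _ ≤ (v x₁ ^ 2 * v x₁) * v x₂ ^ 3 := mul_le_mul' (mul_le_mul' le_rfl hx₁) le_rfl
        _ = v x₁ ^ 3 * v x₂ ^ 3 := by rw [← pow_succ]
    have hC : (v (x₁ * x₂)) ^ 2 ≤ (v x₁ * v x₂) ^ 3 := by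
      rw [map_mul]
      calc (v x₁ * v x₂) ^ 2 = (v x₁ * v x₂) ^ 2 * 1 := (mul_one _).symm
        _ ≤ (v x₁ * v x₂) ^ 2 * (v x₁ * v x₂) := mul_le_mul' le_rfl h12
        _ = (v x₁ * v x₂) ^ 3 := by rw [← pow_succ]
    rcases le_max_iff.mp (Valuation.map_add_le_max' v (y₁ * x₂ + y₂ * x₁) (x₁ * x₂)) with h | h
    · rcases le_max_iff.mp (Valuation.map_add_le_max' v (y₁ * x₂) (y₂ * x₁)) with h' | h'
      · exact le_trans (pow_le_pow_left' (le_trans h h') 2) hA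
      · exact le_trans (pow_le_pow_left' (le_trans h h') 2) hB
    · exact le_trans (pow_le_pow_left' h 2) hC
  have hX : v x₃ * (v x₁ * v x₂) = v ν ^ 2 := by rw [← map_mul, ← map_mul, X3, map_pow]
  by_contra hcon
  have hcon := not_le.mp hcon
  have hw0 : 0 < v w := by
    rcases eq_or_lt_of_le (zero_le : (0 : Γ₀) ≤ v w) with h0 | h0
    · rw [← h0, mul_zero] at hνw
      exact absurd hνw (pow_pos p₁₂ 2).ne
    · exact h0
  -- `v ν ^ 2 < v x₁ * v x₂`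
  have hν2 : v ν ^ 2 < v x₁ * v x₂ := by
    rw [← hX]
    calc v x₃ * (v x₁ * v x₂) < 1 * (v x₁ * v x₂) := mul_lt_mul_of_pos_right hcon p₁₂
      _ = v x₁ * v x₂ := one_mul _
  have h1 : (v ν * v w) ^ 2 < (v x₁ * v x₂) * (v x₁ * v x₂) ^ 3 := by
    rw [mul_pow]
    calc v ν ^ 2 * v w ^ 2 < (v x₁ * v x₂) * v w ^ 2 :=
          mul_lt_mul_of_pos_right hν2 (pow_pos hw0 2)
      _ ≤ (v x₁ * v x₂) * (v x₁ * v x₂) ^ 3 := mul_le_mul' le_rfl hw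
  rw [hνw, ← pow_mul, ← pow_succ'] at h1
  exact lt_irrefl _ h1

/-- Branch estimate: if `d ν x₁ x₂ = x₃ (t₁ + t₂ - t₃)` with all three
terms of valuation less than `v ν * v x₁ * v x₂`, then `v d < v x₃`. -/
theorem Ident.branch_lt {x₁ x₂ x₃ ν t₁ t₂ t₃ d : K}
    (hx₁ : 0 < v x₁) (hx₂ : 0 < v x₂) (hν : 0 < v ν) (hx₃ : 0 < v x₃)
    (H : d * ν * x₁ * x₂ = x₃ * (t₁ + t₂ - t₃))
    (h1 : v t₁ < v ν * v x₁ * v x₂)
    (h2 : v t₂ < v ν * v x₁ * v x₂)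
    (h3 : v t₃ < v ν * v x₁ * v x₂) :
    v d < v x₃ := by
  have hpos : 0 < v ν * v x₁ * v x₂ := mul_pos (mul_pos hν hx₁) hx₂
  have hin : v (t₁ + t₂ - t₃) < v ν * v x₁ * v x₂ :=
    Valuation.map_sub_lt v (Valuation.map_add_lt v h1 h2) h3
  have hv : v d * (v ν * v x₁ * v x₂) = v x₃ * v (t₁ + t₂ - t₃) := by
    rw [← map_mul, ← map_mul, ← map_mul, ← map_mul, ← H]
    congr 1; ring
  have : v d * (v ν * v x₁ * v x₂) < v x₃ * (v ν * v x₁ * v x₂) := by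
    rw [hv]
    exact mul_lt_mul_of_pos_left hin hx₃
  exact lt_of_mul_lt_mul_right this (le_of_lt hpos)

/-- Core valuation computation for the sum of a point of the identity component and a point
on the `+` branch. -/
theorem Ident.coreEP {b x₁ y₁ x₂ y₂ x₃ y₃ ν : K}
    (hb1 : v b < 1) (hx₁ : 1 ≤ v x₁)
    (hb₂ : v b < v x₂) (hx₂ : v x₂ < 1) (he₂ : v y₂ < v x₂)
    (E1 : y₁ ^ 2 + x₁ * y₁ = x₁ ^ 3 + b * x₁) (E2 : y₂ ^ 2 + x₂ * y₂ = x₂ ^ 3 + b * x₂)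
    (N1 : ν * (x₂ - x₁) = y₁ * x₂ - y₂ * x₁)
    (X3 : x₃ * (x₁ * x₂) = ν ^ 2)
    (Y3 : y₃ * ν * x₁ * x₂ = x₃ * (y₂ * ν * x₁ + ν ^ 2 * x₂ - b * x₁ * x₂)) :
    (v b < v x₃ ∧ v x₃ < 1 ∧ v y₃ < v x₃) ∧ v x₂ = v x₃ := by
  have p₁ : 0 < v x₁ := lt_of_lt_of_le zero_lt_one hx₁
  have p₂ : 0 < v x₂ := lt_of_le_of_lt zero_le hb₂
  have p₁₂ : 0 < v x₁ * v x₂ := mul_pos p₁ p₂
  have h21 : v x₂ < v x₁ := lt_of_lt_of_le hx₂ hx₁
  have hy₁ := Ident.val_y_sq_le v (le_of_lt hb1) hx₁ E1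
  set d := y₁ * x₂ - y₂ * x₁ with hd
  set w := y₁ * x₂ + y₂ * x₁ + x₁ * x₂ with hw
  -- the bound `M ^ 2 = v x₁ ^ 3 * v x₂ ^ 2`
  set m2 : Γ₀ := v x₁ ^ 3 * v x₂ ^ 2 with hm2
  have hA : (v (y₁ * x₂)) ^ 2 ≤ m2 := by
    rw [map_mul, mul_pow]
    exact mul_le_mul' hy₁ le_rfl
  have hx1sq : v x₁ ^ 2 ≤ v x₁ ^ 3 := by
    calc v x₁ ^ 2 = v x₁ ^ 2 * 1 := (mul_one _).symm
      _ ≤ v x₁ ^ 2 * v x₁ := mul_le_mul' le_rfl hx₁
      _ = v x₁ ^ 3 := by rw [← pow_succ]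
  have hB : (v (y₂ * x₁)) ^ 2 ≤ m2 := by
    rw [map_mul, mul_pow, hm2, mul_comm]
    exact mul_le_mul' hx1sq (pow_le_pow_left' (le_of_lt he₂) 2)
  have hC : (v (x₁ * x₂)) ^ 2 ≤ m2 := by
    rw [map_mul, mul_pow, hm2]
    exact mul_le_mul' hx1sq le_rfl
  have hdle : v d ^ 2 ≤ m2 := by
    rcases le_max_iff.mp (Valuation.map_sub v (y₁ * x₂) (y₂ * x₁)) with h | h
    · exact le_trans (pow_le_pow_left' h 2) hA
    · exact le_trans (pow_le_pow_left' h 2) hB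
  have hwle : v w ^ 2 ≤ m2 := by
    rcases le_max_iff.mp (Valuation.map_add_le_max' v (y₁ * x₂ + y₂ * x₁) (x₁ * x₂)) with h | h
    · rcases le_max_iff.mp (Valuation.map_add_le_max' v (y₁ * x₂) (y₂ * x₁)) with h' | h'
      · exact le_trans (pow_le_pow_left' (le_trans h h') 2) hA
      · exact le_trans (pow_le_pow_left' (le_trans h h') 2) hB
    · exact le_trans (pow_le_pow_left' h 2) hC
  -- `d * w = x₁ x₂ (x₂ - x₁) (b - x₁ x₂)`
  have hdw : d * w = x₁ * x₂ * (x₁ - x₂) * (x₁ * x₂ - b) := by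
    rw [hd, hw]
    linear_combination x₂ ^ 2 * E1 - x₁ ^ 2 * E2
  have hsub : v (x₁ - x₂) = v x₁ := Valuation.map_sub_eq_of_lt_left v h21
  have hbx : v (x₁ * x₂ - b) = v x₁ * v x₂ := by
    rw [← map_mul]
    apply Valuation.map_sub_eq_of_lt_left v
    rw [map_mul]
    calc v b < v x₂ := hb₂
      _ = 1 * v x₂ := (one_mul _).symm
      _ ≤ v x₁ * v x₂ := mul_le_mul' hx₁ le_rfl
  have hdwv : v d * v w = m2 := by
    rw [← map_mul, hdw, map_mul, map_mul, map_mul, hsub, hbx, hm2]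
    rw [pow_succ, pow_two, pow_two]
    simp only [mul_comm, mul_left_comm, mul_assoc]
  have hd2 : v d ^ 2 = m2 := by
    rcases eq_or_lt_of_le hdle with h | h
    · exact h
    · exfalso
      have hw0 : 0 < v w := by
        rcases eq_or_lt_of_le (zero_le : (0 : Γ₀) ≤ v w) with h0 | h0
        · rw [← h0, mul_zero] at hdwv
          exact absurd hdwv (mul_pos (pow_pos p₁ 3) (pow_pos p₂ 2)).ne
        · exact h0
      have h1 : (v d * v w) ^ 2 < m2 * m2 := by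
        rw [mul_pow]
        calc v d ^ 2 * v w ^ 2 < m2 * v w ^ 2 := mul_lt_mul_of_pos_right h (pow_pos hw0 2)
          _ ≤ m2 * m2 := mul_le_mul' le_rfl hwle
      rw [hdwv, pow_two] at h1
      exact lt_irrefl _ h1
  -- `v ν ^ 2 = v x₁ * v x₂ ^ 2`
  have hν2 : v ν ^ 2 = v x₁ * v x₂ ^ 2 := by
    have hN : v ν * v x₁ = v d := by
      rw [← hsub, ← Valuation.map_sub_swap v x₂ x₁, ← map_mul, N1]
    have : v ν ^ 2 * v x₁ ^ 2 = (v x₁ * v x₂ ^ 2) * v x₁ ^ 2 := by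
      rw [← mul_pow, hN, hd2, hm2, pow_succ (v x₁) 2]
      simp only [mul_comm, mul_left_comm, mul_assoc]
    exact mul_right_cancel₀ (pow_pos p₁ 2).ne' this
  have pν : 0 < v ν := by
    rcases eq_or_lt_of_le (zero_le : (0 : Γ₀) ≤ v ν) with h0 | h0
    · rw [← h0, zero_pow two_ne_zero] at hν2
      exact absurd hν2 (mul_pos p₁ (pow_pos p₂ 2)).ne
    · exact h0
  have hX : v x₃ * (v x₁ * v x₂) = v ν ^ 2 := by rw [← map_mul, ← map_mul, X3, map_pow]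
  have hx3 : v x₃ = v x₂ := by
    have : v x₃ * (v x₁ * v x₂) = v x₂ * (v x₁ * v x₂) := by
      rw [hX, hν2, pow_two]
      simp only [mul_comm, mul_left_comm, mul_assoc]
    exact mul_right_cancel₀ p₁₂.ne' this
  have p₃ : 0 < v x₃ := hx3 ▸ p₂
  -- `v ν < v x₁` and `v b < v ν`
  have hνlt : v ν < v x₁ := by
    apply lt_of_pow_lt_pow_left₀ 2 (le_of_lt p₁)
    rw [hν2, pow_two (v x₁)]
    apply mul_lt_mul_of_pos_left _ p₁
    calc v x₂ ^ 2 = v x₂ * v x₂ := pow_two _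
      _ < 1 * 1 := mul_lt_mul'' hx₂ hx₂ zero_le zero_le
      _ = 1 := one_mul 1
      _ ≤ v x₁ := hx₁
  have hbν : v b < v ν := by
    apply lt_of_pow_lt_pow_left₀ 2 (le_of_lt pν)
    rw [hν2]
    calc v b ^ 2 = v b * v b := pow_two _
      _ < v x₂ * v x₂ := mul_lt_mul'' hb₂ hb₂ zero_le zero_le
      _ = 1 * v x₂ ^ 2 := by rw [one_mul, pow_two]
      _ ≤ v x₁ * v x₂ ^ 2 := mul_le_mul' hx₁ le_rfl
  refine ⟨⟨hx3 ▸ hb₂, hx3 ▸ hx₂, ?_⟩, hx3.symm⟩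
  refine Ident.branch_lt v p₁ p₂ pν p₃ Y3 ?_ ?_ ?_
  · rw [map_mul, map_mul, mul_comm (v y₂), mul_assoc (v ν) (v x₁),
      mul_assoc (v ν) _ (v x₁)]
    apply mul_lt_mul_of_pos_left _ pν
    rw [mul_comm (v x₁)]
    exact mul_lt_mul_of_pos_right he₂ p₁
  · rw [map_mul, map_pow, pow_two, mul_assoc (v ν) (v x₁), mul_assoc (v ν) (v ν)]
    apply mul_lt_mul_of_pos_left _ pν
    exact mul_lt_mul_of_pos_right hνlt p₂
  · rw [map_mul, map_mul]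
    apply mul_lt_mul_of_pos_right _ p₂
    exact mul_lt_mul_of_pos_right hbν p₁

end Core

open WeierstrassCurve WeierstrassCurve.Affine

variable {K : Type*} [Field K] [DecidableEq K]

/-- The sum of two affine points of the identity component lies on the identity component. -/
theorem comp_add_EE {A : ValuationSubring K} {W : Affine K} (D : NodalData A W)
    {x₁ y₁ x₂ y₂ : K} (h₁ : W.Nonsingular x₁ y₁) (h₂ : W.Nonsingular x₂ y₂)
    (hx₁ : 1 ≤ A.valuation x₁) (hx₂ : 1 ≤ A.valuation x₂) :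
    Comp A (Point.some x₁ y₁ h₁ + Point.some x₂ y₂ h₂) 1 := by
  have p₁ : 0 < A.valuation x₁ := lt_of_lt_of_le zero_lt_one hx₁
  have p₂ : 0 < A.valuation x₂ := lt_of_lt_of_le zero_lt_one hx₂
  have hx₁0 : x₁ ≠ 0 := (Valuation.pos_iff _).mp p₁
  have hx₂0 : x₂ ≠ 0 := (Valuation.pos_iff _).mp p₂
  have E1 : y₁ ^ 2 + x₁ * y₁ = x₁ ^ 3 + W.a₄ * x₁ := (D.model.equation_iff _ _).mp h₁.1
  have E2 : y₂ ^ 2 + x₂ * y₂ = x₂ ^ 3 + W.a₄ * x₂ := (D.model.equation_iff _ _).mp h₂.1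
  by_cases hne : x₁ = x₂ ∧ y₁ = -y₂ - x₂
  · obtain ⟨hx, hy⟩ := hne
    rw [Point.add_of_Y_eq hx (by rw [D.negY]; exact hy)]
    exact (comp_zero_iff A 1).mpr rfl
  · obtain ⟨x₃, y₃, ν, h₃, hsum, -, N2, X3, -⟩ :=
      add_formula D.model h₁ h₂ hx₁0 hx₂0 hne
    rw [hsum, comp_some_iff]
    exact Or.inl ⟨Ident.coreEE A.valuation D.hb hx₁ hx₂ E1 E2 N2 X3, rfl⟩

/-- Adding a point of the identity component to a point of the `+` branch keeps the branch and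
the valuation of the `x`-coordinate. -/
theorem comp_add_EP {A : ValuationSubring K} {W : Affine K} (D : NodalData A W)
    {x₁ y₁ x₂ y₂ : K} (h₁ : W.Nonsingular x₁ y₁) (h₂ : W.Nonsingular x₂ y₂)
    (hx₁ : 1 ≤ A.valuation x₁) (hP₂ : MidPlus A W x₂ y₂) :
    Comp A (Point.some x₁ y₁ h₁ + Point.some x₂ y₂ h₂) (A.valuation x₂) := by
  obtain ⟨hb₂, hx₂, he₂⟩ := hP₂
  have p₁ : 0 < A.valuation x₁ := lt_of_lt_of_le zero_lt_one hx₁
  have p₂ : 0 < A.valuation x₂ := lt_of_le_of_lt zero_le hb₂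
  have hx₁0 : x₁ ≠ 0 := (Valuation.pos_iff _).mp p₁
  have hx₂0 : x₂ ≠ 0 := (Valuation.pos_iff _).mp p₂
  have E1 : y₁ ^ 2 + x₁ * y₁ = x₁ ^ 3 + W.a₄ * x₁ := (D.model.equation_iff _ _).mp h₁.1
  have E2 : y₂ ^ 2 + x₂ * y₂ = x₂ ^ 3 + W.a₄ * x₂ := (D.model.equation_iff _ _).mp h₂.1
  have hne : ¬(x₁ = x₂ ∧ y₁ = -y₂ - x₂) := by
    rintro ⟨hx, -⟩
    rw [hx] at hx₁
    exact absurd hx₂ (not_lt.mpr hx₁)
  obtain ⟨x₃, y₃, ν, h₃, hsum, N1, -, X3, Y3⟩ :=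
    add_formula D.model h₁ h₂ hx₁0 hx₂0 hne
  rw [hsum, comp_some_iff]
  exact Or.inr (Or.inr (Or.inl
    (Ident.coreEP A.valuation D.hb hx₁ hb₂ hx₂ he₂ E1 E2 N1 X3 Y3)))

end Fermat.Agent.S13.Nodal
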