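import Fermat.Agent.S13.Nodal.Defs
import Fermat.Agent.S13.Nodal.AddFormula
import Fermat.Agent.S13.Nodal.Basic
import Fermat.Agent.S13.Nodal.Ident

set_option autoImplicit false
set_option linter.unusedSectionVars false

/-!
# P-S13 WP-C2c: assembly of the component homomorphism on the nodal normal form

`Comp P g → Comp Q g' → ∃ m, Comp (P + Q) (g g' β^(2m))`, from the four cases
`E₀ + E₀` and `E₀ + (+)` (`Ident.lean`), `(+) + (+)` and `(+) + (-)` (WP-C2b, taken here as the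
hypotheses `AddPP`, `AddPM`), negation and translation by `T₀ = (0,0)` (`Basic.lean`).
Port of `S05/Component.lean`.
-/

namespace Fermat.Agent.S13.Nodal

open WeierstrassCurve WeierstrassCurve.Affine

variable {K : Type*} [Field K] [DecidableEq K]

variable {A : ValuationSubring K} {W : Affine K}

/-- Input from WP-C2b: the sum of two points of the `+` branch. -/
def AddPP (A : ValuationSubring K) (W : Affine K) : Prop :=
  ∀ {x₁ y₁ x₂ y₂ : K} (h₁ : W.Nonsingular x₁ y₁) (h₂ : W.Nonsingular x₂ y₂),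
    MidPlus A W x₁ y₁ → MidPlus A W x₂ y₂ →
    ∃ m : ℤ, Comp A (Point.some x₁ y₁ h₁ + Point.some x₂ y₂ h₂)
      (A.valuation x₁ * A.valuation x₂ * A.valuation W.a₄ ^ (2 * m))

/-- Input from WP-C2b: the sum of a point of the `+` branch and a point of the `-` branch. -/
def AddPM (A : ValuationSubring K) (W : Affine K) : Prop :=
  ∀ {x₁ y₁ x₂ y₂ : K} (h₁ : W.Nonsingular x₁ y₁) (h₂ : W.Nonsingular x₂ y₂),
    MidPlus A W x₁ y₁ → MidMinus A W x₂ y₂ →
    ∃ m : ℤ, Comp A (Point.some x₁ y₁ h₁ + Point.some x₂ y₂ h₂)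
      (A.valuation x₁ * (A.valuation x₂)⁻¹ * A.valuation W.a₄ ^ (2 * m))

/-- The point lies on the component of `(0,0)`. -/
def IsT (A : ValuationSubring K) {W : Affine K} : W.Point → Prop
  | .zero => False
  | .some x _ _ => A.valuation x ≤ A.valuation W.a₄

/-- transfer of a component value along negation of both summands -/
theorem comp_of_neg_add_neg (D : NodalData A W) {P Q : W.Point} {h : A.ValueGroup}
    (hc : Comp A (-P + -Q) h) :
    ∃ m : ℤ, Comp A (P + Q) (h⁻¹ * A.valuation W.a₄ ^ (2 * m)) := by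
  obtain ⟨m, hm⟩ := comp_neg D hc
  refine ⟨m, ?_⟩
  have : -(-P + -Q) = P + Q := by
    rw [neg_add, neg_neg, neg_neg]
  rwa [this] at hm

theorem comp_add_core (D : NodalData A W) (hPP : AddPP A W) (hPM : AddPM A W)
    {P Q : W.Point} {g g' : A.ValueGroup}
    (hP : Comp A P g) (hQ : Comp A Q g') (hPT : ¬IsT A P) (hQT : ¬IsT A Q) :
    ∃ m : ℤ, Comp A (P + Q) (g * g' * A.valuation W.a₄ ^ (2 * m)) := by
  have hβ := D.beta_ne_zero
  rcases P with _ | ⟨x₁, y₁, h₁⟩
  · refine ⟨0, ?_⟩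
    have hg : g = 1 := hP
    have : (Point.zero : W.Point) = 0 := rfl
    rw [this, zero_add, hg]
    simpa using hQ
  rcases Q with _ | ⟨x₂, y₂, h₂⟩
  · refine ⟨0, ?_⟩
    have hg : g' = 1 := hQ
    have : (Point.zero : W.Point) = 0 := rfl
    rw [this, add_zero, hg]
    simpa using hP
  obtain ⟨h₁', hn₁⟩ := neg_some_eq D h₁
  obtain ⟨h₂', hn₂⟩ := neg_some_eq D h₂
  rw [comp_some_iff] at hP hQ
  rcases hP with ⟨hx₁, rfl⟩ | ⟨hx₁, rfl⟩ | ⟨hP₁, rfl⟩ | ⟨hP₁, rfl⟩
  · -- first point in the identity component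
    rcases hQ with ⟨hx₂, rfl⟩ | ⟨hx₂, rfl⟩ | ⟨hP₂, rfl⟩ | ⟨hP₂, rfl⟩
    · exact ⟨0, by simpa using comp_add_EE D h₁ h₂ hx₁ hx₂⟩
    · exact absurd hx₂ hQT
    · exact ⟨0, by simpa using comp_add_EP D h₁ h₂ hx₁ hP₂⟩
    · have := comp_add_EP D h₁' h₂' hx₁ (midPlus_neg hP₂)
      rw [← hn₁, ← hn₂] at this
      obtain ⟨m, hm⟩ := comp_of_neg_add_neg D this
      exact ⟨m, by simpa using hm⟩
  · exact absurd hx₁ hPT
  · -- first point on the plus branch
    rcases hQ with ⟨hx₂, rfl⟩ | ⟨hx₂, rfl⟩ | ⟨hP₂, rfl⟩ | ⟨hP₂, rfl⟩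
    · have := comp_add_EP D h₂ h₁ hx₂ hP₁
      rw [add_comm] at this
      exact ⟨0, by simpa using this⟩
    · exact absurd hx₂ hQT
    · exact hPP h₁ h₂ hP₁ hP₂
    · exact hPM h₁ h₂ hP₁ hP₂
  · -- first point on the minus branch
    rcases hQ with ⟨hx₂, rfl⟩ | ⟨hx₂, rfl⟩ | ⟨hP₂, rfl⟩ | ⟨hP₂, rfl⟩
    · have := comp_add_EP D h₂' h₁' hx₂ (midPlus_neg hP₁)
      rw [← hn₁, ← hn₂, add_comm] at this
      obtain ⟨m, hm⟩ := comp_of_neg_add_neg D this
      exact ⟨m, by simpa using hm⟩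
    · exact absurd hx₂ hQT
    · obtain ⟨m, hm⟩ := hPM h₂ h₁ hP₂ hP₁
      rw [add_comm] at hm
      exact ⟨m, by rwa [mul_comm (A.valuation x₁)⁻¹]⟩
    · obtain ⟨m, hm⟩ := hPP h₁' h₂' (midPlus_neg hP₁) (midPlus_neg hP₂)
      rw [← hn₁, ← hn₂] at hm
      obtain ⟨m', hm'⟩ := comp_of_neg_add_neg D hm
      refine ⟨m' - m, ?_⟩
      have e : (A.valuation x₁ * A.valuation x₂ * A.valuation W.a₄ ^ (2 * m))⁻¹ *
          A.valuation W.a₄ ^ (2 * m') =
          (A.valuation x₁)⁻¹ * (A.valuation x₂)⁻¹ * A.valuation W.a₄ ^ (2 * (m' - m)) := by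
        rw [mul_sub, zpow_sub₀ hβ]
        simp only [mul_inv]
        field_simp
      rwa [e] at hm'

/-- adding `(0,0)` repeatedly -/
theorem comp_add_nsmul_zeroZero (D : NodalData A W) {S : W.Point} {h : A.ValueGroup}
    (hS : Comp A S h) (n : ℕ) :
    ∃ m : ℤ, Comp A (S + n • Point.some 0 0 D.nonsingular_zeroZero)
      (h * A.valuation W.a₄ ^ (2 * m + n)) := by
  induction n with
  | zero => exact ⟨0, by simpa using hS⟩
  | succ n ih =>
    obtain ⟨m, hm⟩ := ih
    obtain ⟨m', hm'⟩ := comp_add_zeroZero D D.nonsingular_zeroZero hm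
    refine ⟨m + m', ?_⟩
    have hβ := D.beta_ne_zero
    have e1 : S + (n + 1) • Point.some 0 0 D.nonsingular_zeroZero =
        S + n • Point.some 0 0 D.nonsingular_zeroZero + Point.some 0 0 D.nonsingular_zeroZero := by
      rw [succ_nsmul, add_assoc]
    have e2 : h * A.valuation W.a₄ ^ (2 * m + (n : ℤ)) * A.valuation W.a₄ ^ (2 * m' + 1) =
        h * A.valuation W.a₄ ^ (2 * (m + m') + ((n + 1 : ℕ) : ℤ)) := by
      rw [mul_assoc, ← zpow_add₀ hβ]
      congr 2
      push_cast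
      ring
    rw [e1, ← e2]
    exact hm'

theorem zeroZero_add_zeroZero (D : NodalData A W) :
    Point.some 0 0 D.nonsingular_zeroZero + Point.some 0 0 D.nonsingular_zeroZero = 0 := by
  apply Point.add_of_Y_eq rfl
  rw [D.negY]
  ring

/-- every point is a point off the component of `(0,0)` plus a multiple of `(0,0)` -/
theorem comp_decomp (D : NodalData A W) {P : W.Point} {g : A.ValueGroup}
    (hP : Comp A P g) :
    ∃ (P₀ : W.Point) (g₀ : A.ValueGroup) (k : ℕ),
      P = P₀ + k • Point.some 0 0 D.nonsingular_zeroZero ∧ Comp A P₀ g₀ ∧ ¬IsT A P₀ ∧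
        g = g₀ * A.valuation W.a₄ ^ k := by
  by_cases hT : IsT A P
  · rcases P with _ | ⟨x, y, h⟩
    · exact absurd hT (by simp [IsT])
    have hx : A.valuation x ≤ A.valuation W.a₄ := hT
    have hg : g = A.valuation W.a₄ := by
      rw [comp_some_iff] at hP
      rcases hP with ⟨h1, _⟩ | ⟨_, rfl⟩ | ⟨⟨h1, _, _⟩, _⟩ | ⟨⟨h1, _, _⟩, _⟩
      · exact absurd (lt_of_le_of_lt (le_trans h1 hx) D.hb) (lt_irrefl _)
      · rfl
      · exact absurd (lt_of_lt_of_le h1 hx) (lt_irrefl _)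
      · exact absurd (lt_of_lt_of_le h1 hx) (lt_irrefl _)
    have hTT := zeroZero_add_zeroZero D
    -- the point `P + T₀` lies on the identity component
    have hkey : IsIdent A (Point.some x y h + Point.some 0 0 D.nonsingular_zeroZero) := by
      by_cases hx0 : x = 0
      · subst hx0
        have hy : y = 0 ∨ y = -0 - 0 := by
          have E := (D.model.equation_iff 0 y).mp h.1
          have : y ^ 2 = 0 := by linear_combination E
          left
          exact pow_eq_zero_iff (two_ne_zero) |>.mp this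
        have hy0 : y = 0 := by rcases hy with h | h <;> simpa using h
        subst hy0
        rw [hTT]
        trivial
      · obtain ⟨h', he⟩ := add_zeroZero_formula D.model h hx0 D.nonsingular_zeroZero
        rw [he, isIdent_some, map_div₀]
        have hxv : A.valuation x ≠ 0 := (Valuation.ne_zero_iff _).mpr hx0
        rw [le_div_iff₀ (zero_lt_iff.mpr hxv), one_mul]
        exact hx
    refine ⟨Point.some x y h + Point.some 0 0 D.nonsingular_zeroZero, 1, 1, ?_, ?_, ?_, ?_⟩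
    · rw [one_nsmul, add_assoc, hTT, add_zero]
    · exact comp_of_isIdent hkey
    · -- a point of the identity component is not on the component of `(0,0)`
      generalize Point.some x y h + Point.some 0 0 D.nonsingular_zeroZero = R at hkey
      rcases R with _ | ⟨x', y', h'⟩
      · exact fun h => h
      · intro hT'
        have h1 : 1 ≤ A.valuation x' := hkey
        have h2 : A.valuation x' ≤ A.valuation W.a₄ := hT'
        exact absurd (lt_of_le_of_lt (le_trans h1 h2) D.hb) (lt_irrefl _)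
    · rw [hg, one_mul, pow_one]
  · exact ⟨P, g, 0, by simp, hP, hT, by simp⟩

/-- The component value is additive modulo even powers of `v(a₄)`. -/
theorem comp_add_of (D : NodalData A W) (hPP : AddPP A W) (hPM : AddPM A W)
    {P Q : W.Point} {g g' : A.ValueGroup}
    (hP : Comp A P g) (hQ : Comp A Q g') :
    ∃ m : ℤ, Comp A (P + Q) (g * g' * A.valuation W.a₄ ^ (2 * m)) := by
  obtain ⟨P₀, g₀, k, rfl, hP₀, hPT, rfl⟩ := comp_decomp D hP
  obtain ⟨Q₀, g₀', l, rfl, hQ₀, hQT, rfl⟩ := comp_decomp D hQ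
  obtain ⟨m, hm⟩ := comp_add_core D hPP hPM hP₀ hQ₀ hPT hQT
  obtain ⟨m', hm'⟩ := comp_add_nsmul_zeroZero D hm (k + l)
  refine ⟨m + m', ?_⟩
  have hβ := D.beta_ne_zero
  have e1 : P₀ + k • Point.some 0 0 D.nonsingular_zeroZero +
      (Q₀ + l • Point.some 0 0 D.nonsingular_zeroZero) =
      P₀ + Q₀ + (k + l) • Point.some 0 0 D.nonsingular_zeroZero := by
    rw [add_nsmul]; abel
  have e2 : g₀ * g₀' * A.valuation W.a₄ ^ (2 * m) *
      A.valuation W.a₄ ^ (2 * m' + ((k + l : ℕ) : ℤ)) =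
      g₀ * A.valuation W.a₄ ^ k * (g₀' * A.valuation W.a₄ ^ l) *
        A.valuation W.a₄ ^ (2 * (m + m')) := by
    rw [← zpow_natCast, ← zpow_natCast]
    have : g₀ * A.valuation W.a₄ ^ (k : ℤ) * (g₀' * A.valuation W.a₄ ^ (l : ℤ)) *
        A.valuation W.a₄ ^ (2 * (m + m')) =
        g₀ * g₀' * (A.valuation W.a₄ ^ (k : ℤ) * A.valuation W.a₄ ^ (l : ℤ) *
        A.valuation W.a₄ ^ (2 * (m + m'))) := by ac_rfl
    rw [this, ← zpow_add₀ hβ, ← zpow_add₀ hβ, mul_assoc, ← zpow_add₀ hβ]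
    congr 2
    push_cast
    ring
  rw [e1, ← e2]
  exact hm'

theorem comp_nsmul_of (D : NodalData A W) (hPP : AddPP A W) (hPM : AddPM A W)
    {P : W.Point} {g : A.ValueGroup}
    (hP : Comp A P g) (n : ℕ) :
    ∃ m : ℤ, Comp A (n • P) (g ^ n * A.valuation W.a₄ ^ (2 * m)) := by
  induction n with
  | zero => exact ⟨0, by simp [comp_zero_iff]⟩
  | succ n ih =>
    obtain ⟨m, hm⟩ := ih
    obtain ⟨m', hm'⟩ := comp_add_of D hPP hPM hm hP
    refine ⟨m + m', ?_⟩
    have hβ := D.beta_ne_zero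
    have e2 : g ^ n * A.valuation W.a₄ ^ (2 * m) * g * A.valuation W.a₄ ^ (2 * m') =
        g ^ (n + 1) * A.valuation W.a₄ ^ (2 * (m + m')) := by
      rw [mul_add, zpow_add₀ hβ, pow_succ]
      ac_rfl
    rw [succ_nsmul, ← e2]
    exact hm'

end Fermat.Agent.S13.Nodal
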